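import Mathlib
import Fermat.Agent.LT.T7.H561.BlocksSpec
import Fermat.Agent.LT.T2.H793.RayGen
import Fermat.Agent.LT.T2.H566.Local

/-!
# Row LT, tower T7, leaf T7.L2.2.B5 `PhiC561` (helper271)

OFF-MAIN.  The class of `Φ` is not zero: `phiC271 K K' : H561.PhiC561 K K'`, exact type of
`LT/T7/H561/BlocksSpec.lean` (helper561@fa57d28b6, sha256 5ceeaa4d).

The function is the form `φ` of `Φ` (`A0.IsSph0CuspFormFor`):

* level: `𝔑₀ ≤ Φ.level`, so `U(𝔑₀) ⊆ U(Φ.level)` (`inLevelGroup_mono271`);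
* ray generator: a product of positive scalars at the infinite places (`rayOfArch793`, asset
  helper793 `LT/T2/H793/RayGen.lean`; `T5.IsRayGen` and `T2.IsRayGen` are the same Prop);
* Iwahori subgroups along the orbit: the places of the orbit do not divide `Φ.level`
  (`orbit_good`), there the level group is `GL₂(𝒪_w)` (`integers_subset_idealClosure566`, asset
  helper566 `LT/T2/H566/Local.lean`), which contains the Iwahori subgroup;
* Hecke eigenfunction at `v ∤ 𝔑₀`: then `v ∤ Φ.level`;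
* sphere means: `K'` is totally complex (`IsComplex.of_comap`), `MeanEig · sph0` is
  `A0.MeanValueComplex`.
-/

set_option autoImplicit false
set_option linter.unusedSectionVars false

open AutomorphicForm IsDedekindDomain NumberField MeasureTheory

noncomputable section

namespace Fermat.Agent.LT.T7.H271

open Fermat.Agent.LT.H556 Fermat.Agent.LT.H556.A0 Fermat.Agent.LT.T7 Fermat.Agent.LT.T7.H561

section OneField

variable {K : Type} [Field K] [NumberField K]

theorem idealClosure_mono271 {𝔪 𝔫 : Ideal (𝓞 K)} (h : 𝔪 ≤ 𝔫) (v : HeightOneSpectrum (𝓞 K)) :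
    idealClosure 𝔪 v ⊆ idealClosure 𝔫 v :=
  closure_mono (Set.image_mono fun _ hx => h hx)

/-- `U(𝔪) ⊆ U(𝔫)` for `𝔪 ≤ 𝔫`. -/
theorem inLevelGroup_mono271 {𝔪 𝔫 : Ideal (𝓞 K)} (h : 𝔪 ≤ 𝔫) {u : G K}
    (hu : InLevelGroup 𝔪 u) : InLevelGroup 𝔫 u :=
  ⟨hu.1, fun v a b =>
    ⟨idealClosure_mono271 h v (hu.2 v a b).1, idealClosure_mono271 h v (hu.2 v a b).2⟩⟩

theorem trivAtInf_one271 (w : InfinitePlace K) : TrivAtInf w (1 : G K) :=
  (T2.H566.trivAtInf_iff566 w 1).2 (map_one _)

theorem trivAtFin_one271 (v : HeightOneSpectrum (𝓞 K)) : TrivAtFin v (1 : G K) :=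
  (T2.H566.trivAtFin_iff566 v 1).2 (map_one _)

theorem one_entry_mem271 (v : HeightOneSpectrum (𝓞 K)) (a b : Fin 2) :
    (1 : Matrix (Fin 2) (Fin 2) (v.adicCompletion K)) a b ∈ v.adicCompletionIntegers K := by
  rw [Matrix.one_apply]
  split_ifs
  · exact one_mem _
  · exact zero_mem _

/-- An element which is trivial at infinity and outside the places `o j` (`j < l`), and lies in
the Iwahori subgroup at these places, belongs to the level group `U(𝔫)` if the places `o j` do
not divide `𝔫`. -/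
theorem inLevelGroup_of_iw271 {𝔫 : Ideal (𝓞 K)} (l : ℕ) (o : ℕ → HeightOneSpectrum (𝓞 K))
    (hgood : ∀ j, ¬ (o j).asIdeal ∣ 𝔫) {h : G K}
    (hinf : ∀ w : InfinitePlace K, TrivAtInf w h)
    (hfin : ∀ v : HeightOneSpectrum (𝓞 K), (∀ j < l, v ≠ o j) → TrivAtFin v h)
    (hiw : ∀ j < l, T5.InIwahori (o j) h) : InLevelGroup 𝔫 h := by
  refine ⟨hinf, fun v a b => ?_⟩
  by_cases hv : ∃ j, j < l ∧ v = o j
  · obtain ⟨j, hj, rfl⟩ := hv
    obtain ⟨hint, hint', -⟩ := hiw j hj
    constructor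
    · apply T2.H566.integers_subset_idealClosure566 𝔫 (o j) (hgood j)
      rw [Matrix.sub_apply]
      exact sub_mem (hint a b) (one_entry_mem271 (o j) a b)
    · apply T2.H566.integers_subset_idealClosure566 𝔫 (o j) (hgood j)
      rw [Matrix.sub_apply]
      exact sub_mem (hint' a b) (one_entry_mem271 (o j) a b)
  · have hv' : ∀ j < l, v ≠ o j := fun j hj e => hv ⟨j, hj, e⟩
    have e1 : finComp v h = 1 := hfin v hv'
    have e2 : finComp v h⁻¹ = 1 := by
      have h3 := T2.H566.finComp_inv_mul566 v h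
      rw [e1, mul_one] at h3
      exact h3
    rw [e1, e2, sub_self]
    exact ⟨T2.H566.zero_mem_idealClosure566 𝔫 v, T2.H566.zero_mem_idealClosure566 𝔫 v⟩

/-- A form of A0 is invariant under the ray generator. -/
theorem ray_inv271 {π : HeckeEigensystem K ℂ} {φ : G K → ℂ} (hφ : IsSph0CuspFormFor π φ)
    {r : G K} (hr : T5.IsRayGen r) (g : G K) : φ (g * r) = φ g :=
  T2.H793.rayOfArch793 K φ hφ.arch_scalar r hr g

end OneField

section TwoFields

variable {K K' : Type} [Field K] [NumberField K] [Field K'] [NumberField K'] [Algebra K K']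

theorem isComplex_of_totCplx271 (h : TotCplx K) (w : InfinitePlace K') : w.IsComplex :=
  InfinitePlace.IsComplex.of_comap (algebraMap K K') (h _)

variable (K K')

/-- **LEAF T7.L2.2.B5 `PhiC561`.** -/
theorem phiC271 : PhiC561 K K' := by
  intro ℓ _ _ hcplx Φ hΦ _ Dt hDt
  obtain ⟨φ, hφ⟩ := hΦ
  have hbad : Dt.IsBad (1 : G K') :=
    ⟨fun w => trivAtInf_one271 w, fun v _ => trivAtFin_one271 v⟩
  have hray : T5.IsRayGen Dt.R'.r := (hDt.comp 1 hbad).frame'.ray
  refine ⟨φ, ⟨⟨⟨hφ.cont, hφ.bdd, ⟨fun γ g => hφ.left_inv γ g,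
    fun u hu g => hφ.level_inv u (inLevelGroup_mono271 hDt.level_le hu) g, ?_,
    fun g => ray_inv271 hφ hray g⟩, hφ.cuspidal⟩, hφ.arch_scalar, ?_⟩, ?_, ?_⟩, hφ.ne_zero⟩
  · -- trivial type
    intro w k hk g
    rw [hφ.arch_compact w k hk g]
    simp [T5.trivType]
  · -- Iwahori subgroups along the orbit
    intro h hinf hfin hiw x
    exact hφ.level_inv h (inLevelGroup_of_iw271 ℓ Dt.o hDt.orbit_good hinf hfin hiw) x
  · -- Hecke eigenfunction outside the base level
    intro v hv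
    have hv' : ¬ v.asIdeal ∣ Φ.level := fun hd =>
      hv (dvd_trans hd (Ideal.dvd_iff_le.2 hDt.level_le))
    exact hφ.hecke v hv'
  · -- sphere means
    intro w d hd Y hY g
    exact hφ.mean_complex w (isComplex_of_totCplx271 hcplx w) d hd Y hY g

end TwoFields

end Fermat.Agent.LT.T7.H271

end
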