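import Mathlib
import Fermat.Agent.LT.T7.H281.OpUpSpec
import Fermat.Agent.LT.T7.H340.IwKit

/-!
# Row LT, tower T7, sub-leaf T7.L2.1.F3.I `IndepC281` (helper271)

OFF-MAIN.  `indepC271 K : H281.IndepC281 K`, exact type of `LT/T7/H281/OpUpSpec.lean`
(helper281@a99fa3f20, sha256 2dcc737e).

* First half (`iwOp (o 0) H ψ` does not depend on the Iwahori coset system `H` for an Iwahori
  invariant `ψ`): `iwOp_indep340` and `isIwInv_local340` (asset helper340@78085a8e5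
  `LT/T7/H340/IwKit.lean`, byte-identical copy).
* Second half (`cosetOp Hg χ` does not depend on the system `Hg` of `U(𝔫₀) g U(𝔫₀) / U(𝔫₀)` for a
  right `U(𝔫₀)`-invariant `χ`): `U(𝔫₀)` is a group (`inLevelGroup_mul271`: the closure of the
  ideal in the completion is closed under addition and multiplication); for `a ∈ Hg`,
  `a = u₁ g u₂`, the third clause of `Hg'` for `u₁` gives `a' ∈ Hg'` with `a'⁻¹ a ∈ U(𝔫₀)`; the
  maps `a ↦ a'` are inverse to each other (second clause); `Finset.sum_nbij'`.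
-/

set_option autoImplicit false
set_option linter.unusedSectionVars false

open IsDedekindDomain NumberField

noncomputable section

namespace Fermat.Agent.LT.T7.H271

open Fermat.Agent.LT.H556 Fermat.Agent.LT.H556.A0 Fermat.Agent.LT.H129 Fermat.Agent.LT.T7

variable {K : Type} [Field K] [NumberField K]

/-! ## The level group is a group -/

theorem idealClosure_add271 {𝔫 : Ideal (𝓞 K)} {v : HeightOneSpectrum (𝓞 K)}
    {x y : v.adicCompletion K} (hx : x ∈ idealClosure 𝔫 v) (hy : y ∈ idealClosure 𝔫 v) :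
    x + y ∈ idealClosure 𝔫 v := by
  refine map_mem_closure₂ (f := fun a b : v.adicCompletion K => a + b) continuous_add hx hy ?_
  rintro _ ⟨a, ha, rfl⟩ _ ⟨b, hb, rfl⟩
  exact ⟨a + b, 𝔫.add_mem ha hb, by simp only [map_add]⟩

theorem idealClosure_mul271 {𝔫 : Ideal (𝓞 K)} {v : HeightOneSpectrum (𝓞 K)}
    {x y : v.adicCompletion K} (hx : x ∈ idealClosure 𝔫 v) (hy : y ∈ idealClosure 𝔫 v) :
    x * y ∈ idealClosure 𝔫 v := by
  refine map_mem_closure₂ (f := fun a b : v.adicCompletion K => a * b) continuous_mul hx hy ?_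
  rintro _ ⟨a, ha, rfl⟩ _ ⟨b, _, rfl⟩
  exact ⟨a * b, 𝔫.mul_mem_right b ha, by simp only [map_mul]⟩

theorem finComp_mul271 (v : HeightOneSpectrum (𝓞 K)) (a b : G K) :
    finComp v (a * b) = finComp v a * finComp v b := by
  rw [← coe_finCompHom129, map_mul, Units.val_mul, coe_finCompHom129, coe_finCompHom129]

theorem levelFin_mul271 {𝔫 : Ideal (𝓞 K)} (v : HeightOneSpectrum (𝓞 K)) (a b : G K)
    (ha : ∀ i j, (finComp v a - 1) i j ∈ idealClosure 𝔫 v)
    (hb : ∀ i j, (finComp v b - 1) i j ∈ idealClosure 𝔫 v) (i j : Fin 2) :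
    (finComp v (a * b) - 1) i j ∈ idealClosure 𝔫 v := by
  have e : finComp v (a * b) - 1
      = (finComp v a - 1) * (finComp v b - 1) + (finComp v a - 1) + (finComp v b - 1) := by
    rw [finComp_mul271]
    noncomm_ring
  rw [e, Matrix.add_apply, Matrix.add_apply, Matrix.mul_apply, Fin.sum_univ_two]
  exact idealClosure_add271 (idealClosure_add271 (idealClosure_add271
    (idealClosure_mul271 (ha i 0) (hb 0 j)) (idealClosure_mul271 (ha i 1) (hb 1 j)))
    (ha i j)) (hb i j)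

/-- `U(𝔫)` is closed under multiplication. -/
theorem inLevelGroup_mul271 {𝔫 : Ideal (𝓞 K)} {u u' : G K} (hu : InLevelGroup 𝔫 u)
    (hu' : InLevelGroup 𝔫 u') : InLevelGroup 𝔫 (u * u') := by
  refine ⟨fun w => ?_, fun v i j => ⟨?_, ?_⟩⟩
  · rw [trivAtInf_iff129, map_mul, (trivAtInf_iff129 w u).1 (hu.1 w),
      (trivAtInf_iff129 w u').1 (hu'.1 w), one_mul]
  · exact levelFin_mul271 v u u' (fun i j => (hu.2 v i j).1) (fun i j => (hu'.2 v i j).1) i j
  · rw [mul_inv_rev]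
    exact levelFin_mul271 v u'⁻¹ u⁻¹ (fun i j => (hu'.2 v i j).2) (fun i j => (hu.2 v i j).2)
      i j

/-! ## Independence of the system of representatives of a double coset -/

theorem dbl_key271 {𝔫 : Ideal (𝓞 K)} {g : G K} {A B : Finset (G K)}
    (hA : IsDblCosetSystem 𝔫 g A) (hB : IsDblCosetSystem 𝔫 g B) :
    ∀ a ∈ A, ∃ b ∈ B, InLevelGroup 𝔫 (b⁻¹ * a) := by
  intro a ha
  obtain ⟨u₁, u₂, h1, h2, rfl⟩ := hA.1 a ha
  obtain ⟨b, hb, hbu⟩ := hB.2.2 u₁ h1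
  refine ⟨b, hb, ?_⟩
  have e : b⁻¹ * (u₁ * g * u₂) = (b⁻¹ * (u₁ * g)) * u₂ := by group
  rw [e]
  exact inLevelGroup_mul271 hbu h2

theorem dbl_inv271 {𝔫 : Ideal (𝓞 K)} {g : G K} {A B : Finset (G K)}
    (hA : IsDblCosetSystem 𝔫 g A) (σ τ : G K → G K)
    (hσ : ∀ a ∈ A, σ a ∈ B ∧ InLevelGroup 𝔫 ((σ a)⁻¹ * a))
    (hτ : ∀ b ∈ B, τ b ∈ A ∧ InLevelGroup 𝔫 ((τ b)⁻¹ * b)) :
    ∀ a ∈ A, τ (σ a) = a := by
  intro a ha
  by_contra hne
  have h1 := (hτ (σ a) (hσ a ha).1).2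
  have h2 := (hσ a ha).2
  have e : (τ (σ a))⁻¹ * a = ((τ (σ a))⁻¹ * σ a) * ((σ a)⁻¹ * a) := by group
  refine hA.2.1 (τ (σ a)) (hτ (σ a) (hσ a ha).1).1 a ha hne ?_
  rw [e]
  exact inLevelGroup_mul271 h1 h2

theorem cosetOp_indep271 {𝔫 : Ideal (𝓞 K)} {g : G K} {Hg Hg' : Finset (G K)}
    (h : IsDblCosetSystem 𝔫 g Hg) (h' : IsDblCosetSystem 𝔫 g Hg') (χ : G K → ℂ)
    (hχ : H281.IsRInv281 𝔫 χ) (x : G K) : cosetOp Hg χ x = cosetOp Hg' χ x := by
  classical
  choose! σ hσ using dbl_key271 h h'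
  choose! τ hτ using dbl_key271 h' h
  show ∑ a ∈ Hg, χ (x * a) = ∑ a ∈ Hg', χ (x * a)
  refine Finset.sum_nbij' σ τ (fun a ha => (hσ a ha).1) (fun a ha => (hτ a ha).1)
    (dbl_inv271 h σ τ hσ hτ) (dbl_inv271 h' τ σ hτ hσ) ?_
  intro a ha
  have e : x * a = (x * σ a) * ((σ a)⁻¹ * a) := by group
  rw [e]
  exact hχ _ (hσ a ha).2 _

/-! ## The sub-leaf -/

/-- **SUB-LEAF T7.L2.1.F3.I `IndepC281`.** -/
theorem indepC271 (K : Type) [Field K] [NumberField K] : H281.IndepC281 K := by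
  intro 𝔫₀ l o hl
  refine ⟨fun H H' hH hH' ψ hψ x => ?_,
    fun g Hg Hg' h h' χ hχ x => cosetOp_indep271 h h' χ hχ x⟩
  exact congrFun (H340.iwOp_indep340 hH hH' ψ
    (fun u hu huI y => H340.isIwInv_local340 hψ hl u hu huI y)) x

end Fermat.Agent.LT.T7.H271

end
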