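import Mathlib
import Fermat.Agent.LT.T7.H816.IotaSpec

/-!
# Row LT, tower T7, node T7.L2.1 `SupplyC`, leaf C2.4-I.7 `NormInfC816` (helper271)

OFF-MAIN.  The infinite part of the module of `ι x` is the `l`-th power of the one of `x`:
`K` is totally complex, so every infinite place of `K'` is complex and unramified over `K`;
`K'/K` is Galois of degree `l`, so there are exactly `l` places over every place of `K`
(orbit-stabiliser); at every place the component of `ι x` has the norm of the component of `x`
(the embeddings of the completions in `ℂ` are isometries, the conjugation is an isometry).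
-/

set_option autoImplicit false

open AutomorphicForm IsDedekindDomain NumberField MeasureTheory
open scoped ComplexConjugate

noncomputable section

namespace Fermat.Agent.LT.T7.H271

open Fermat.Agent.LT.H556 Fermat.Agent.LT.H556.A0 Fermat.Agent.LT.T7
open Fermat.Agent.LT.T7.H305 Fermat.Agent.LT.T7.H816

variable {K K' : Type} [Field K] [NumberField K] [Field K'] [NumberField K'] [Algebra K K']

/-- The norm of a component at an infinite place is the norm of its image in `ℂ`. -/
theorem norm_infHom271 (w : InfinitePlace K) (x : Adl K) :
    ‖T5.infHom w x‖ = ‖x.1 w‖ := by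
  have h := (InfinitePlace.Completion.isometry_extensionEmbedding w).norm_map_of_map_zero
    (map_zero _) (x.1 w)
  exact h

/-- The components of `ι x` have the norms of the components of `x`. -/
theorem norm_comp_iota271 {ι : Adl K →+* Adl K'} (hι : IsPreBase816 ι)
    (w' : InfinitePlace K') (x : Adl K) :
    ‖(ι x).1 w'‖ = ‖x.1 (w'.comap (algebraMap K K'))‖ := by
  rw [← norm_infHom271 w' (ι x), ← norm_infHom271 (w'.comap (algebraMap K K')) x]
  rcases hι.inf w' with h | h
  · rw [h x]
  · rw [h x, RCLike.norm_conj]

open scoped Classical in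
/-- In a Galois extension of a totally complex field there are `[K' : K]` places over every
place. -/
theorem card_fibre271 [IsGalois K K'] (hK : TotCplx K) (v : InfinitePlace K) :
    (Finset.univ.filter (fun w' : InfinitePlace K' => w'.comap (algebraMap K K') = v)).card
      = Module.finrank K K' := by
  obtain ⟨w, rfl⟩ := InfinitePlace.comap_surjective (K := K') v
  have hun : InfinitePlace.IsUnramified K w :=
    InfinitePlace.isUnramified_iff.mpr (Or.inr (hK _))
  have h1 : (Finset.univ.filter
      (fun w' : InfinitePlace K' => w'.comap (algebraMap K K') = w.comap (algebraMap K K')))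
      = (MulAction.orbit Gal(K'/K) w).toFinset := by
    ext w'
    rw [Finset.mem_filter, Set.mem_toFinset, InfinitePlace.mem_orbit_iff]
    simp [eq_comm]
  rw [h1, Set.toFinset_card, ← IsGalois.card_aut_eq_finrank, Nat.card_eq_fintype_card,
    ← MulAction.card_orbit_mul_card_stabilizer_eq_card_group Gal(K'/K) w,
    ← Nat.card_eq_fintype_card (α := MulAction.stabilizer Gal(K'/K) w),
    InfinitePlace.card_stabilizer, if_pos hun, mul_one]

/-- **LEAF T7.L2.1.C2.4-I.7 = NORM-INF.** -/
theorem normInfC271 (K K' : Type) [Field K] [NumberField K] [Field K'] [NumberField K']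
    [Algebra K K'] : NormInfC816 K K' := by
  classical
  intro l hl hK ι hι x
  have : IsGalois K K' := hl.galois
  have hK' : ∀ w' : InfinitePlace K', w'.mult = (w'.comap (algebraMap K K')).mult := by
    intro w'
    have h1 : (w'.comap (algebraMap K K')).IsComplex := hK _
    have h2 : w'.IsComplex := InfinitePlace.IsComplex.of_comap _ h1
    rw [InfinitePlace.mult_isComplex ⟨w', h2⟩, InfinitePlace.mult_isComplex ⟨_, h1⟩]
  calc ∏ w' : InfinitePlace K', ‖(ι x).1 w'‖ ^ w'.mult
      = ∏ w' : InfinitePlace K', (fun v : InfinitePlace K => ‖x.1 v‖ ^ v.mult)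
          (w'.comap (algebraMap K K')) := by
        refine Finset.prod_congr rfl (fun w' _ => ?_)
        rw [norm_comp_iota271 hι w' x, hK' w']
    _ = ∏ v : InfinitePlace K, ∏ w' ∈ Finset.univ.filter
          (fun w' : InfinitePlace K' => w'.comap (algebraMap K K') = v),
            ‖x.1 v‖ ^ v.mult := by
        rw [← Finset.prod_fiberwise' Finset.univ
          (fun w' : InfinitePlace K' => w'.comap (algebraMap K K'))
          (fun v : InfinitePlace K => ‖x.1 v‖ ^ v.mult)]
    _ = ∏ v : InfinitePlace K, (‖x.1 v‖ ^ v.mult) ^ l := by
        refine Finset.prod_congr rfl (fun v _ => ?_)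
        rw [Finset.prod_const, card_fibre271 hK v, hl.degree]
    _ = (∏ v : InfinitePlace K, ‖x.1 v‖ ^ v.mult) ^ l := by
        rw [Finset.prod_pow]

end Fermat.Agent.LT.T7.H271

end
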